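import Fermat.Agent.NP.NL
import Fermat.Agent.NP.Defs
import Fermat.Agent.SS.Top35.Geo

/-!
# NP / Mod : `NLHyp` at the level `M q` from the two norms
-/

set_option autoImplicit false
set_option linter.unusedSectionVars false
set_option linter.style.haveILetI false

noncomputable section

open AlgebraicCurve ModularCurve

namespace Fermat.Agent.NP

open Fermat.Agent.RED hiding Kb
open Fermat.Agent.RED.Gauss Fermat.Agent.S24 Fermat.Agent.SS
open Fermat.Agent.RED.Cusp (Fb jb)

variable {M q : ℕ} [NeZero M] [hq : Fact q.Prime] (hqM : ¬ q ∣ M)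
variable {A : ValuationSubring Kb} {k : Type*} [Field k]
variable (π : A →+* k) [CharP k q] [IsAlgClosed k] (hπ : Function.Surjective π)

/-- the coefficient Frobenius as a ring homomorphism -/
def frobHom (k : Type*) [Field k] (q : ℕ) [Fact q.Prime] [CharP k q] [IsAlgClosed k] (M : ℕ)
    [NeZero M] : Fb k M →+* Fb k M :=
  (SemilinearAut.toRingAut (FrobK.frobAut k q M) : Fb k M ≃+* Fb k M).toRingHom

theorem frobHom_apply (w : Fb k M) : frobHom k q M w = FrobK.frobAut k q M • w := rfl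

theorem frobHom_algebraMap (c : k) :
    frobHom k q M (algebraMap k (Fb k M) c) = algebraMap k (Fb k M) c ^ q := by
  rw [frobHom_apply, SemilinearAut.smul_algebraMap, ← map_pow]
  rfl

theorem nlHyp_of_norm {f : FN (M * q)} {h₁ h₂ : FN M}
    (e₁ : TorsES.normAlong (heckeAlphaBar Kb M q) f = h₁ ^ q)
    (e₂ : TorsES.normAlong (heckeBetaBar Kb M q) f = h₂ ^ q) :
    NLHyp (twoRed hqM π hπ) q f := by
  obtain ⟨w, hw⟩ := exists_isCoreExt M q hqM
  set R := gaussRedData π hπ (card_Q_pos M) hw with hR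
  set T := twoRed hqM π hπ with hT
  intro u δ e z hu hδ he hthr heq
  have hA : ∀ c : Kb, algebraMap Kb (FN M) c ∈ R.O ↔ c ∈ T.A := by
    intro c
    rw [hT, twoRed_A]
    exact algebraMap_mem_gO_iff (gaussNorm π hπ (card_Q_pos M) hw) c
  have hc : ∀ c : Kb, algebraMap Kb (FN M) c ∈ R.O → algebraMap Kb (FN (M * q)) c ∈ T.O :=
    fun c h => T.algebraMap_mem_O ((hA c).1 h)
  have hcA : ∀ c : Kb, algebraMap Kb (FN M) c ∈ R.O → c ∈ A := by
    intro c h
    have := (hA c).1 h
    rwa [hT, twoRed_A] at this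
  have hRred : ∀ (c : Kb) (h₀ : algebraMap Kb (FN M) c ∈ R.O),
      R.red ⟨_, h₀⟩ = algebraMap k (Fb k M) (π ⟨c, hcA c h₀⟩) := fun c h₀ =>
    Subtype.ext (gRed_algebraMap (gaussNorm π hπ (card_Q_pos M) hw) (⟨c, hcA c h₀⟩ : A))
  have hTred : ∀ (c : Kb) (h₀ : algebraMap Kb (FN M) c ∈ R.O),
      T.red ⟨algebraMap Kb (FN (M * q)) c, hc c h₀⟩ =
        (algebraMap k (Fb k M) (π ⟨c, hcA c h₀⟩), algebraMap k (Fb k M) (π ⟨c, hcA c h₀⟩)) :=
    fun c h₀ => red_const hqM π hπ ⟨c, hcA c h₀⟩ (hc c h₀)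
  have hnorm := fun v : T.O => twoRed_norm_red hqM π hπ (f := (v : FN (M * q)))
    (f₁ := (v : FN (M * q))) (f₂ := (v : FN (M * q))) (c₁ := 1) (c₂ := 1) one_ne_zero one_ne_zero
    (by rw [map_one, one_mul]) (by rw [map_one, one_mul]) v.2.1 v.2.2
  constructor
  · letI := algebraAlong (heckeAlphaBar Kb M q)
    haveI := isScalarTower_along (heckeAlphaBar Kb M q)
    haveI : Module.Finite (FN M) (FN (M * q)) := GAL.HeckeInputs.finiteAlong_alpha M q
    refine exists_pow_of_norm R T.A hA T.O ((RingHom.fst _ _).comp T.red)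
      ((frobHom k q M).comp ((RingHom.snd _ _).comp T.red)) hq.out hc ?_ ?_ ?_ e₁ u δ e z hδ he
      hthr heq
    · intro c h₀
      show (T.red _).1 = _
      rw [hTred c h₀, hRred c h₀]
    · intro c h₀
      show frobHom k q M (T.red _).2 = _
      rw [hTred c h₀, hRred c h₀, frobHom_algebraMap]
    · intro v
      obtain ⟨⟨u', hu', hN', hred⟩, -⟩ := hnorm v
      rw [one_pow, mul_one, map_one, one_mul] at hN'
      have hN'' : Algebra.norm (FN M) (v : FN (M * q)) = u' := hN'
      rw [hN'']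
      exact ⟨hu', Subtype.ext hred⟩
  · letI := algebraAlong (heckeBetaBar Kb M q)
    haveI := isScalarTower_along (heckeBetaBar Kb M q)
    haveI : Module.Finite (FN M) (FN (M * q)) := GAL.HeckeInputs.finiteAlong_beta M q
    refine exists_pow_of_norm R T.A hA T.O ((RingHom.snd _ _).comp T.red)
      ((frobHom k q M).comp ((RingHom.fst _ _).comp T.red)) hq.out hc ?_ ?_ ?_ e₂ u δ e z hδ he
      hthr heq
    · intro c h₀
      show (T.red _).2 = _
      rw [hTred c h₀, hRred c h₀]
    · intro c h₀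
      show frobHom k q M (T.red _).1 = _
      rw [hTred c h₀, hRred c h₀, frobHom_algebraMap]
    · intro v
      obtain ⟨-, ⟨u', hu', hN', hred⟩⟩ := hnorm v
      rw [one_pow, mul_one, map_one, one_mul] at hN'
      have hN'' : Algebra.norm (FN M) (v : FN (M * q)) = u' := hN'
      rw [hN'']
      exact ⟨hu', Subtype.ext hred⟩

end Fermat.Agent.NP
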