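import Fermat.Agent.NP.Main
import Fermat.Agent.NP.Mod.NL
import Fermat.Agent.SS.H1C.Nodal
import Fermat.Agent.S33.Geo.Defs

/-!
# NP / Mod : (NEW-p) at the rigid levels, in the shape of `S33.NewP`
-/

set_option autoImplicit false
set_option linter.unusedSectionVars false
set_option linter.style.haveILetI false

noncomputable section

open AlgebraicCurve ModularCurve IsLocalRing

namespace Fermat.Agent.NP

open Fermat.Agent.RED hiding Kb
open Fermat.Agent.S24 Fermat.Agent.SS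
open Fermat.Agent.RED.Cusp (Fb jb)

theorem newP {M p : ℕ} [NeZero M] [hp : Fact p.Prime] (hpM : ¬ p ∣ M) (h49 : 4 ∣ M ∨ 9 ∣ M) :
    S33.NewP M p hpM := by
  intro A hA _ _ τ hτ a ha y _ hy hyA hyB
  obtain ⟨c, 𝒩, -, -, -, -, -, -, -, -, hcomp, hP'⟩ := exists_nodalData_fixed hpM A h49 hA
  obtain ⟨D, f, rfl, h⟩ := hy.exists_isOne (RB.isSepParam_jF (M * p))
  have hdiv : TorsES.IsDiv ((p : ℕ) : ℤ) (D : Divisor Kb (FN (M * p))) (f : FN (M * p)) :=
    ⟨h.ne_zero, h.ord⟩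
  obtain ⟨h₁, -, e₁⟩ := exists_normAlong_eq_of_pushPic0_eq_zero _ _ _ _ (RB.isSepParam_jF M)
    hp.out.ne_zero hdiv hyA
  obtain ⟨h₂, -, e₂⟩ := exists_normAlong_eq_of_pushPic0_eq_zero _ _ _ _ (RB.isSepParam_jF M)
    hp.out.ne_zero hdiv hyB
  have hNL := nlHyp_of_norm hpM (residue A) residue_surjective e₁ e₂
  obtain ⟨ζ, hζ⟩ := HasEnoughRootsOfUnity.exists_primitiveRoot Kb p
  have hζ1 : ζ ≠ 1 := hζ.ne_one hp.out.one_lt
  exact smul_eq_nsmul_of_new 𝒩 (RB.isSepParam_jF (M * p))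
    (Cusp.isSepParam_jb M (ResidueField A) p hpM) hp.out (hcomp τ hτ) (hP' τ hτ) hζ.pow_eq_one hζ1
    (ha ζ hζ.pow_eq_one) h hNL

end Fermat.Agent.NP
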